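import Fermat.Agent.RTX.GalY

/-!
Irreducibility of `E[p]` on subgroups of index two, `5 ≤ p`, all semistable elliptic curves: the
reduction to a statement on the inertia group at `p`.
-/

set_option autoImplicit false

namespace Fermat.Agent.SL1

open WeierstrassCurve WeierstrassCurve.Affine
open Fermat.Agent.ERep Fermat.Agent.Tate Fermat.Agent.RTE
open Fermat.Agent.DefRing (M2 mapRep mapRep_apply MatCont)
open Matrix

/-- The local statement at `p`. -/
def Contra (E : WeierstrassCurve ℚ) [E.IsElliptic] (p : ℕ) [Fact p.Prime] : Prop :=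
  ∀ {H : Subgroup GQ}, H.index = 2 → (∀ g ∉ H, (modE E p g).trace = 0) →
    (∀ A : ValuationSubring Qb, A.LiesOverPrime p → ∃ σ ∈ A.inertiaSubgroupIn ℚ, σ ∉ H) → False

section Main

variable (E : WeierstrassCurve ℚ) [E.IsElliptic] (p : ℕ) [hp : Fact p.Prime]
  {W : WeierstrassCurve ℤ} (hWE : W.IsIntegralModelOf E)

include hWE in
theorem modE_irr_two_of (hC : Contra E p) (hss : W.IsSemistableModel) (hp2 : p ≠ 2)
    (hirr : Affine.Point.GaloisRepIsIrreducible (K := Qb) ℚ E p)
    {K : Type*} [Field K] [Algebra (ZMod p) K] {H : Subgroup GQ} (hH : H.index = 2)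
    {v : Fin 2 → K} (hv : v ≠ 0) :
    ¬ ∀ s ∈ H, ∃ t : K, (modE E p s).map (algebraMap (ZMod p) K) *ᵥ v = t • v := by
  intro hcon
  have hinj : Function.Injective (algebraMap (ZMod p) K) := (algebraMap (ZMod p) K).injective
  set r : GQ →* Matrix (Fin 2) (Fin 2) K :=
    ((algebraMap (ZMod p) K).mapMatrix : Matrix (Fin 2) (Fin 2) (ZMod p) →+* _).toMonoidHom.comp
      (modE E p) with hr
  have hr' : ∀ s, r s = (modE E p s).map (algebraMap (ZMod p) K) := fun s => rfl
  have habs : ¬ ∀ g, ∃ t : K, r g *ᵥ v = t • v := modE_absirr E p hWE hp2 hirr hv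
  have h2K : (2 : K) ≠ 0 := by
    have := (map_ne_zero_iff _ hinj).mpr (two_ne_zero_zmod p hp2)
    rwa [map_ofNat] at this
  obtain ⟨htr, huni⟩ := dihedral r hH hv hcon habs
  -- unipotents are trivial
  have huni' : ∀ h, (modE E p h - 1) * (modE E p h - 1) = 0 → modE E p h = 1 := by
    intro h hh
    have h3 : (r h - 1) * (r h - 1) = 0 := by
      have h4 : r h - 1 = (algebraMap (ZMod p) K).mapMatrix (modE E p h - 1) := by
        rw [map_sub, map_one]; rfl
      rw [h4, ← map_mul, hh, map_zero]
    have h5 := huni h h3 h2K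
    ext i j
    apply hinj
    have h6 := congrFun (congrFun h5 i) j
    rw [hr', Matrix.map_apply] at h6
    rw [h6, Matrix.one_apply, Matrix.one_apply]
    split_ifs <;> simp
  -- inertia away from `p` is trivial
  have hin : ∀ l : ℕ, l.Prime → l ≠ p → ∀ A : ValuationSubring Qb, A.LiesOverPrime l →
      ∀ s ∈ A.inertiaSubgroupIn ℚ, modE E p s = 1 := by
    intro l hl hlp A hA s hs
    by_cases hgood : W.IsGoodPrimeFor l
    · exact modE_inertia_good E p hWE hl hA hlp hgood hs
    · have hΔ : (l : ℤ) ∣ W.Δ := not_not.mp hgood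
      exact huni' s (modE_inertia_mult E p hWE hl hA hlp hΔ (hss l hl hΔ) hs)
  -- the kernel is contained in `H`
  have hker : ∀ n, modE E p n = 1 → n ∈ H := by
    intro n hn
    by_contra hnH
    apply habs
    intro g
    by_cases hg : g ∈ H
    · exact hcon g hg
    · have h3 : g * n⁻¹ ∈ H := by
        rw [Subgroup.mul_mem_iff_of_index_two hH, Subgroup.inv_mem_iff]
        tauto
      obtain ⟨t, ht⟩ := hcon _ h3
      refine ⟨t, ?_⟩
      have h4 : modE E p g = modE E p (g * n⁻¹) := by
        have h5 : g = (g * n⁻¹) * n := by group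
        conv_lhs => rw [h5]
        rw [map_mul, hn, mul_one]
      rw [hr', h4]
      exact ht
  obtain ⟨L, hLfin, hL⟩ := modE_cont E p
  have hLker : L.fixingSubgroup ≤ H := by
    intro σ hσ
    apply hker
    apply hL
    rwa [IntermediateField.mem_fixingSubgroup_iff] at hσ
  obtain ⟨d, δ, h4, h5, hδ, hiff⟩ := exists_pstar hp.out hp2 hH L hLker
    (fun l hl hlp A hA s hs => hker s (hin l hl hlp A hA s hs))
  refine hC hH (fun g hg => ?_) fun A hA => ?_
  · apply hinj
    rw [map_zero]
    have h6 := htr g hg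
    rw [hr', Matrix.trace_fin_two, Matrix.map_apply, Matrix.map_apply, ← map_add,
      ← Matrix.trace_fin_two] at h6
    exact h6
  · have hsqf : Squarefree d := by
      have h6 : Prime (p : ℤ) := Nat.prime_iff_prime_int.mp hp.out
      rcases h5 with h5 | h5
      · rw [h5]; exact h6.squarefree
      · rw [h5]; exact h6.neg.squarefree
    have hpd : (p : ℤ) ∣ d := by
      rcases h5 with h5 | h5
      · rw [h5]
      · rw [h5]; exact dvd_neg.mpr dvd_rfl
    obtain ⟨s, hs, hs'⟩ := inertia_sqrt hsqf hδ hp.out hpd hA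
    exact ⟨s, hs, fun h => hs' ((hiff s).mp h)⟩

include hWE in
/-- **The residual representation** of a semistable curve satisfies the hypotheses of the
Taylor–Wiles method. -/
theorem rd_of_all (hC : Contra E p) (hss : W.IsSemistableModel) (hp2 : p ≠ 2)
    (hirr : Affine.Point.GaloisRepIsIrreducible (K := Qb) ℚ E p)
    {k : Type} [Field k] (hchar : (p : k) = 0) (i : GaloisField p 2 →+* k) (f : ℤ_[p] →+* k) :
    TWP.RD p (mapRep f (matE E p)) := by
  have hns := nonScalar_of_irreducible E p hirr
  have hcharP : CharP k p := (CharP.charP_iff_prime_eq_zero hp.out).mpr hchar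
  refine ⟨hchar, ?_, ?_, ?_, ?_⟩
  · obtain ⟨L, hL, h⟩ := modE_cont E p
    refine ⟨L, hL, fun σ hσ => ?_⟩
    rw [mapRep_matE, h σ hσ, map_one]
  · intro σ a ha
    rw [mapRep_matE, ← RingHom.map_det, det_modE E p hWE hns σ a ha, map_natCast]
  · intro σ
    have h1 : (mapRep f (matE E p) σ).charpoly =
        (modE E p σ).charpoly.map (ZMod.castHom (dvd_refl p) k) := by
      rw [mapRep_matE, RingHom.mapMatrix_apply, Matrix.charpoly_map]
    rw [h1]
    exact exists_split p i _ _ (Matrix.charpoly_monic _)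
      (by rw [Matrix.charpoly_natDegree_eq_dim, Fintype.card_fin])
  · intro H hH v hv
    by_contra hcon
    push Not at hcon
    let _ : Algebra (ZMod p) (AlgebraicClosure k) :=
      ((algebraMap k (AlgebraicClosure k)).comp (ZMod.castHom (dvd_refl p) k)).toAlgebra
    have h1 : ∀ s, (modE E p s).map (algebraMap (ZMod p) (AlgebraicClosure k)) =
        (mapRep f (matE E p) s).map (algebraMap k (AlgebraicClosure k)) := by
      intro s
      rw [mapRep_matE]
      rfl
    have h3 : ∀ s ∈ H, ∃ t : AlgebraicClosure k,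
        (modE E p s).map (algebraMap (ZMod p) (AlgebraicClosure k)) *ᵥ v = t • v := by
      intro s hs
      obtain ⟨c, hc⟩ := hcon s hs
      exact ⟨c, by rw [h1, hc]⟩
    rcases hH with hH | hH
    · exact modE_irr_two_of E p hWE hC hss hp2 hirr hH hv h3
    · exact modE_absirr E p hWE hp2 hirr hv (fun s => h3 s (by rw [hH]; trivial))

end Main

section Coeff

open IsLocalRing

theorem rd_rbE_all (E : WeierstrassCurve ℚ) [E.IsElliptic] (p : ℕ) [hp : Fact p.Prime]
    {W : WeierstrassCurve ℤ} (hWE : W.IsIntegralModelOf E) {O : Type} [CommRing O] [IsLocalRing O]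
    (hpO : (p : O) ∈ maximalIdeal O) (f : ℤ_[p] →+* O) (hC : Contra E p)
    (hss : W.IsSemistableModel) (hp2 : p ≠ 2)
    (hirr : Affine.Point.GaloisRepIsIrreducible (K := Qb) ℚ E p)
    (i : GaloisField p 2 →+* ResidueField O) : TWP.RD p (rbE E p f) :=
  rd_of_all E p hWE hC hss hp2 hirr (by
    rw [← map_natCast (residue O), residue_eq_zero_iff]
    exact hpO) i ((residue O).comp f)

/-- **RD**, from the local statement at `p`. -/
theorem rd_EW_of {W : WeierstrassCurve ℤ} {p : ℕ} [hp : Fact p.Prime] [(EW W).IsElliptic]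
    (hC : Contra (EW W) p)
    (hss : W.IsSemistableModel) (hp2 : p ≠ 2) (hirr : W.ModRepIsIrreducible p)
    {O : Type} [CommRing O] [IsLocalRing O] (hpO : (p : O) ∈ maximalIdeal O) (f : ℤ_[p] →+* O)
    (i : GaloisField p 2 →+* ResidueField O) : TWP.RD p (rbE (EW W) p f) :=
  rd_rbE_all (EW W) p (isIntegralModelOf_EW W) hpO f hC hss hp2 hirr i

end Coeff

end Fermat.Agent.SL1
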