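import Fermat.Agent.SL1.Loc
import Fermat.Agent.SL1.Core
import Fermat.Agent.FlatT.PtE
import Fermat.Agent.Flat.FlatG
import Fermat.Agent.RTan.LocSurj

/-!
# S38, block T1: a curve with good reduction at `p ≥ 5`: the residual representation is not dihedral
with inertia at `p` off the index two subgroup
-/

set_option autoImplicit false
set_option linter.style.haveILetI false

namespace Fermat.Agent.SL1

open WeierstrassCurve WeierstrassCurve.Affine
open Fermat.Agent.ERep Fermat.Agent.Tate Fermat.Agent.RTE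
open Fermat.Agent.DefRing (M2 mapRep mapRep_apply MatCont)
open Fermat.Agent.Flat Fermat.Agent.Flat.Loc
open Matrix

/-- The roots of `X ^ p ^ k - X` come from the algebraic closure of `ℚ`. -/
theorem exists_emb_teich {p : ℕ} [hp : Fact p.Prime] {k : ℕ} (hk : 0 < k) {s : PadicAlgCl p}
    (hs : s ^ p ^ k = s) : ∃ z : Qb, padicEmbedding p z = s := by
  by_cases h0 : s = 0
  · exact ⟨0, by rw [map_zero, h0]⟩
  · have hm : 0 < p ^ k - 1 := by
      have h1 : 1 < p ^ k := Nat.one_lt_pow hk.ne' hp.out.one_lt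
      omega
    have : NeZero (p ^ k - 1) := ⟨hm.ne'⟩
    obtain ⟨ζ, hζ⟩ := HasEnoughRootsOfUnity.exists_primitiveRoot Qb (p ^ k - 1)
    have h2 : IsPrimitiveRoot (padicEmbedding p ζ) (p ^ k - 1) :=
      hζ.map_of_injective (padicEmbedding p).toRingHom.injective
    obtain ⟨i, -, hi⟩ := h2.eq_pow_of_pow_eq_one (pow_sub_one_eq_one hs h0)
    exact ⟨ζ ^ i, by rw [map_pow, hi]⟩

/-- Inertia elements of the `p`-adic place come from the local inertia group. -/
theorem exists_inert_lift {p : ℕ} [hp : Fact p.Prime] {σ : GQ}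
    (hσ : σ ∈ (padicPlace p).inertiaSubgroupIn ℚ) :
    ∃ γ ∈ inert p, localGaloisToGlobal p γ = σ := by
  have h1 := (TWP.mem_inertia_iff (padicPlace p) σ).mp hσ
  have h4 : ∃ γ : GP p, localGaloisToGlobal p γ = σ :=
    RTan.exists_rl ⟨p, hp.out⟩ (σ := σ) h1.1
  obtain ⟨γ, hγ'⟩ := h4
  refine ⟨γ, fun x hx => ?_, hγ'⟩
  obtain ⟨k, hk, s, hs, hxs⟩ := exists_teich hx
  obtain ⟨z, rfl⟩ := exists_emb_teich hk hs
  have hs1 : ‖padicEmbedding p z‖ ≤ 1 := norm_le_one_of_teich hk hs
  have hz : z ∈ padicPlace p := by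
    rw [mem_padicPlace_iff]
    exact hs1
  have h2 := h1.2 z hz
  rw [CFT6.mem_nonunits_padic, map_sub, ← hγ', padicEmbedding_localGaloisToGlobal] at h2
  have h3 : γ x - x = γ (x - padicEmbedding p z) + ((γ (padicEmbedding p z) - padicEmbedding p z) +
      (padicEmbedding p z - x)) := by
    rw [map_sub]; ring
  rw [h3]
  refine lt_of_le_of_lt (PadicAlgCl.isNonarchimedean p _ _) (max_lt ?_ ?_)
  · rw [norm_aut]
    exact hxs
  · refine lt_of_le_of_lt (PadicAlgCl.isNonarchimedean p _ _) (max_lt h2 ?_)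
    rw [norm_sub_rev]
    exact hxs

section Good

variable (E : WeierstrassCurve ℚ) [E.IsElliptic] (p : ℕ) [hp : Fact p.Prime]
  {W : WeierstrassCurve ℤ} (hWE : W.IsIntegralModelOf E)

include hWE in
/-- The residual representation of a curve with good reduction at `p` is flat. -/
theorem exists_ord_modE (hpΔ : ¬ (p : ℤ) ∣ W.Δ) (hp2 : p ≠ 2) :
    haveI := setting_padic (p := p) hp2
    Nonempty (Ord p (PadicAlgCl p) (inert p)
      (fun s => vAct ((modE E p).comp (localGaloisToGlobal p)) s.1)) := by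
  have h0 := FlatT.flatRep_matE E p hWE hpΔ (ZMod p) PadicInt.toZMod
  letI := FlatT.matAct (mapRep PadicInt.toZMod (FlatT.matE E p))
  obtain ⟨H, i1, i2, h1, -, -, e, he, hact⟩ := h0.exists_hopfAlgebra
  exact Flat.exists_ord e hp2 he (fun s x => s • x) hact

include hWE in
theorem good_contra (hpΔ : ¬ (p : ℤ) ∣ W.Δ) (hp5 : 5 ≤ p)
    (hirr : Affine.Point.GaloisRepIsIrreducible (K := Qb) ℚ E p) {H : Subgroup GQ}
    (_hH : H.index = 2) (htr : ∀ g ∉ H, (modE E p g).trace = 0)
    (hA : ∀ A : ValuationSubring Qb, A.LiesOverPrime p → ∃ σ ∈ A.inertiaSubgroupIn ℚ, σ ∉ H) :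
    False := by
  have hp2 : p ≠ 2 := by omega
  have hns := nonScalar_of_irreducible E p hirr
  haveI := setting_padic (p := p) hp2
  obtain ⟨D⟩ := exists_ord_modE E p hWE hpΔ hp2
  obtain ⟨σ, hσ, hσH⟩ := hA (padicPlace p) (CFT6.liesOver_padic p)
  obtain ⟨γ, hγ, rfl⟩ := exists_inert_lift hσ
  refine loc_contra (H := H.comap (localGaloisToGlobal p)) hp5 (fun γ => ?_) D (fun g _ hg => ?_)
    ⟨γ, hγ, hσH⟩
  · rw [MonoidHom.comp_apply, det_modE E p hWE hns _ _ (fun μ hμ => ltg_root hp2 γ μ hμ),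
      ZMod.natCast_zmod_val]
  · exact htr _ hg

end Good

end Fermat.Agent.SL1
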