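import Fermat.Agent.RTE.Loc

/-!
# S38, block T1: a curve multiplicative at `p ≥ 5`: the residual representation is not dihedral
with inertia at `p` off the index two subgroup
-/

set_option autoImplicit false

namespace Fermat.Agent.SL1

open WeierstrassCurve WeierstrassCurve.Affine
open Fermat.Agent.ERep Fermat.Agent.Tate Fermat.Agent.RTE
open Fermat.Agent.DefRing (M2 mapRep mapRep_apply MatCont)
open Matrix

/-- Inertia at `p ≥ 5` contains an element acting on `μ_p` neither trivially nor by inversion. -/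
theorem exists_inertia_cyc2 {p : ℕ} [hp : Fact p.Prime] (hp5 : 5 ≤ p) {A : ValuationSubring Qb}
    (hA : A.LiesOverPrime p) :
    ∃ s ∈ A.inertiaSubgroupIn ℚ, ∃ a : ℕ, (∀ μ : Qb, μ ^ p = 1 → s μ = μ ^ a) ∧
      (a : ZMod p) ≠ 1 ∧ (a : ZMod p) ≠ -1 := by
  have hvq : A.valuation ((p : ℕ) : Qb) < 1 := A.mem_nonunits_iff.mp hA
  have : NeZero p := ⟨hp.out.ne_zero⟩
  obtain ⟨ζ, hζ⟩ := HasEnoughRootsOfUnity.exists_primitiveRoot Qb p
  have hζ0 : ζ ≠ 0 := hζ.ne_zero hp.out.ne_zero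
  by_contra hcon
  push Not at hcon
  set x : Qb := (ζ - 1) * (ζ⁻¹ - 1) with hx
  have hζ1 : ζ - 1 ≠ 0 := sub_ne_zero.mpr (hζ.ne_one hp.out.one_lt)
  have hx' : x = -ζ⁻¹ * (ζ - 1) ^ 2 := by
    rw [hx]
    field_simp
    ring
  have hx0 : x ≠ 0 := by
    rw [hx']
    exact mul_ne_zero (neg_ne_zero.mpr (inv_ne_zero hζ0)) (pow_ne_zero _ hζ1)
  have hfix : ∀ s ∈ A.inertiaSubgroupIn ℚ, s x = x := by
    intro s hs
    obtain ⟨a, ha⟩ := exists_exp hp.out s
    have hpow : ∀ b : ℕ, (a : ZMod p) = b → s ζ = ζ ^ b := by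
      intro b hb
      rw [ha ζ hζ.pow_eq_one]
      exact pow_eq_pow_of_modEq ((ZMod.natCast_eq_natCast_iff _ _ p).mp hb) hζ.pow_eq_one
    by_cases h1 : (a : ZMod p) = 1
    · have h2 : s ζ = ζ := by
        have := hpow 1 (by rw [h1, Nat.cast_one])
        rwa [pow_one] at this
      rw [hx, map_mul, map_sub, map_sub, map_inv₀, h2, _root_.map_one]
    · have h2 := hcon s hs a ha h1
      have h3 : s ζ = ζ⁻¹ := by
        have h4 := hpow (p - 1) (by
          rw [h2, Nat.cast_sub hp.out.one_le, ZMod.natCast_self, Nat.cast_one, zero_sub])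
        rw [h4]
        apply eq_inv_of_mul_eq_one_left
        rw [← pow_succ, Nat.sub_add_cancel hp.out.one_le, hζ.pow_eq_one]
      rw [hx, map_mul, map_sub, map_sub, map_inv₀, h3, _root_.map_one, inv_inv, mul_comm]
  obtain ⟨n, hn⟩ := SEL.exists_valuation_zpow_of_inertia A hp.out hA hx0 hfix
  have hv := ELoc.val_zeta (v := A.valuation) hp.out hζ
  have h0 : A.valuation ((p : ℕ) : Qb) ≠ 0 := by
    rw [Valuation.ne_zero_iff]
    exact_mod_cast hp.out.ne_zero
  have hζv : A.valuation ζ = 1 := by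
    have h1 : A.valuation ζ ^ p = 1 := by rw [← map_pow, hζ.pow_eq_one, _root_.map_one]
    exact (pow_eq_one_iff.mp h1).resolve_right hp.out.ne_zero
  have hxv : A.valuation x = A.valuation (ζ - 1) ^ 2 := by
    rw [hx', map_mul, Valuation.map_neg, map_inv₀, hζv, inv_one, one_mul, map_pow]
  have h1 : A.valuation ((p : ℕ) : Qb) ^ (n * ((p - 1 : ℕ) : ℤ)) =
      A.valuation ((p : ℕ) : Qb) ^ (2 : ℤ) := by
    rw [_root_.zpow_mul, ← hn, hxv, zpow_natCast, ← pow_mul, mul_comm 2, pow_mul, hv]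
    norm_cast
  have hvp0 : 0 < A.valuation ((p : ℕ) : Qb) := zero_lt_iff.mpr h0
  have h2 := (zpow_right_injective₀ hvp0 hvq.ne) h1
  have h3 : ((p - 1 : ℕ) : ℤ) ∣ 2 := ⟨n, by rw [← h2]; ring⟩
  have h4 := Int.le_of_dvd (by norm_num) h3
  omega

section Mult

variable (E : WeierstrassCurve ℚ) [E.IsElliptic] (p : ℕ) [hp : Fact p.Prime]
  {W : WeierstrassCurve ℤ} (hWE : W.IsIntegralModelOf E)

include hWE in
/-- Multiplicative reduction at `p`: on inertia at `p`, an element of trace zero acts by inversion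
on `μ_p`. -/
theorem cyc_eq_neg_one_of_trace (hns : NonScalar E p) (hp2 : p ≠ 2) {A : ValuationSubring Qb}
    (hA : A.LiesOverPrime p) (hΔ : (p : ℤ) ∣ W.Δ) (hc : ¬ (p : ℤ) ∣ W.c₄) {σ : GQ}
    (hσ : σ ∈ A.inertiaSubgroupIn ℚ) (htr : (modE E p σ).trace = 0) {a : ℕ}
    (ha : ∀ μ : Qb, μ ^ p = 1 → σ μ = μ ^ a) : (a : ZMod p) = -1 := by
  have hO := (ordM_matE E p hWE hns hA hΔ hc hp2 hσ).quot σ hσ
  rw [Algebra.algebraMap_self, RingHom.id_apply] at hO
  have hdet := det_modE E p hWE hns σ a ha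
  have hcyc : PadicInt.toZMod (cycE p σ) = (a : ZMod p) := by
    rw [← det_eq_cyc E p hWE hns, ← det_matE, RingHom.map_det, ← hdet]
    rfl
  have h1 : ((a : ZMod p) • (1 : M2 (ZMod p)) - modE E p σ) * (modE E p σ - 1) = 0 := by
    have h2 := congrArg (PadicInt.toZMod (p := p)).mapMatrix hO
    have h3 : (PadicInt.toZMod (p := p)).mapMatrix (cycE p σ • (1 : M2 ℤ_[p])) =
        (a : ZMod p) • (1 : M2 (ZMod p)) := by
      rw [← hcyc]
      ext i j
      rw [RingHom.mapMatrix_apply, Matrix.map_apply, Matrix.smul_apply, Matrix.smul_apply,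
        smul_eq_mul, smul_eq_mul, map_mul, Matrix.one_apply, Matrix.one_apply]
      split_ifs <;> simp
    rw [map_mul, map_sub, map_sub, map_one, map_zero, h3] at h2
    exact h2
  set M := modE E p σ with hM
  have h3 : M * M = -((a : ZMod p) • (1 : M2 (ZMod p))) := by
    rw [sq_eq' M, htr, hdet, zero_smul, zero_sub]
  have h4 : ((a : ZMod p) + 1) • M = 0 := by
    have h5 : ((a : ZMod p) • (1 : M2 (ZMod p)) - M) * (M - 1) =
        ((a : ZMod p) + 1) • M - ((a : ZMod p) • (1 : M2 (ZMod p)) + M * M) := by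
      rw [sub_mul, mul_sub, mul_sub, smul_mul_assoc, one_mul, mul_one, mul_one, add_smul, one_smul]
      abel
    rw [h5, h3, add_neg_cancel, sub_zero] at h1
    exact h1
  have h6 : M ≠ 0 := by
    intro h
    have h7 : modE E p (σ * σ⁻¹) = 0 := by rw [map_mul, ← hM, h, zero_mul]
    rw [mul_inv_cancel, map_one] at h7
    exact one_ne_zero h7
  rcases smul_eq_zero.mp h4 with h | h
  · exact eq_neg_of_add_eq_zero_left h
  · exact absurd h h6

include hWE in
theorem mult_contra (hbad : (p : ℤ) ∣ W.Δ) (hc₄ : ¬ (p : ℤ) ∣ W.c₄) (hp5 : 5 ≤ p)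
    (hirr : Affine.Point.GaloisRepIsIrreducible (K := Qb) ℚ E p) {H : Subgroup GQ}
    (_hH : H.index = 2) (htr : ∀ g ∉ H, (modE E p g).trace = 0)
    (hA : ∀ A : ValuationSubring Qb, A.LiesOverPrime p → ∃ σ ∈ A.inertiaSubgroupIn ℚ, σ ∉ H) :
    False := by
  have hp2 : p ≠ 2 := by omega
  have hns := nonScalar_of_irreducible E p hirr
  obtain ⟨A, hAp⟩ := Frob.exists_liesOverPrime Qb hp.out
  obtain ⟨σ, hσ, hσH⟩ := hA A hAp
  obtain ⟨τ, hτ, a, ha, ha1, ha2⟩ := exists_inertia_cyc2 hp5 hAp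
  obtain ⟨b, hb⟩ := exists_exp hp.out σ
  have hb1 := cyc_eq_neg_one_of_trace E p hWE hns hp2 hAp hbad hc₄ hσ (htr σ hσH) hb
  by_cases hτH : τ ∈ H
  · have h1 : τ * σ ∉ H := by
      rw [Subgroup.mul_mem_cancel_left _ hτH]
      exact hσH
    have h2 := cyc_eq_neg_one_of_trace E p hWE hns hp2 hAp hbad hc₄ (mul_mem hτ hσ)
      (htr _ h1) (a := a * b) (fun μ hμ => by
        have h3 : (τ * σ) μ = τ (σ μ) := rfl
        rw [h3, hb μ hμ, map_pow, ha μ hμ, ← pow_mul])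
    rw [Nat.cast_mul, hb1, mul_neg, mul_one, neg_inj] at h2
    exact ha1 h2
  · exact ha2 (cyc_eq_neg_one_of_trace E p hWE hns hp2 hAp hbad hc₄ hτ (htr τ hτH) ha)

end Mult

end Fermat.Agent.SL1
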