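import Fermat.Agent.SL1.Core
import Fermat.Agent.SL1.Mult
import Fermat.Agent.SL1.Good
import Fermat.Agent.RTM.LiftSS

/-!
The hypotheses `RD` of the Taylor–Wiles method, for all semistable elliptic curves and all odd
primes.
-/

set_option autoImplicit false

namespace Fermat.Agent.SL1

open WeierstrassCurve WeierstrassCurve.Affine IsLocalRing
open Fermat.Agent.ERep Fermat.Agent.Tate Fermat.Agent.RTE
open Fermat.Agent.DefRing Fermat.Agent.RTan
open Fermat.Agent.RTM (Gal GalP)

theorem contra_all (E : WeierstrassCurve ℚ) [E.IsElliptic] (p : ℕ) [hp : Fact p.Prime]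
    {W : WeierstrassCurve ℤ} (hWE : W.IsIntegralModelOf E) (hss : W.IsSemistableModel)
    (hp5 : 5 ≤ p) (hirr : Affine.Point.GaloisRepIsIrreducible (K := Qb) ℚ E p) : Contra E p := by
  intro H hH htr hA
  by_cases hbad : (p : ℤ) ∣ W.Δ
  · exact mult_contra E p hWE hbad (hss p hp.out hbad) hp5 hirr hH htr hA
  · exact good_contra E p hWE hbad hp5 hirr hH htr hA

/-- **RD** for all semistable curves, all odd primes. -/
theorem rd_EW_all {W : WeierstrassCurve ℤ} {p : ℕ} [hp : Fact p.Prime] [(EW W).IsElliptic]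
    (hss : W.IsSemistableModel) (hp2 : p ≠ 2) (hirr : W.ModRepIsIrreducible p)
    {O : Type} [CommRing O] [IsLocalRing O] (hpO : (p : O) ∈ maximalIdeal O) (f : ℤ_[p] →+* O)
    (i : GaloisField p 2 →+* ResidueField O) : TWP.RD p (rbE (EW W) p f) := by
  by_cases hp5 : 5 ≤ p
  · exact rd_EW_of (contra_all (EW W) p (isIntegralModelOf_EW W) hss hp5 hirr) hss hp2 hirr hpO f i
  · have h3 : p = 3 := by
      have h1 := hp.out.two_le
      have h4 : p ≠ 4 := by
        rintro rfl
        exact absurd hp.out (by norm_num)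
      omega
    exact RTX.rd_EW' hss (Or.inl h3) hirr hpO f i

/-- **Existence of the Galois data** for all semistable curves, all odd primes. -/
theorem exists_gal_all {O : Type} [CommRing O] [IsDomain O] [IsDiscreteValuationRing O]
    [IsAdicComplete (maximalIdeal O) O] [Finite (ResidueField O)] [CharZero O]
    {p : ℕ} [hp : Fact p.Prime] {W : WeierstrassCurve ℤ} (hp2 : p ≠ 2)
    (hpO : (p : O) ∈ maximalIdeal O)
    (hss : W.IsSemistableModel) (hirr : W.ModRepIsIrreducible p)
    [(EW W).IsElliptic] (f : ℤ_[p] →+* O) (hf : Function.Injective f)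
    (i : GaloisField p 2 →+* ResidueField O) (m : ℕ) (hm : m ≠ 0) (hpm : p ∣ m)
    (hΔm : ∀ q : ℕ, q.Prime → (q : ℤ) ∣ W.Δ → q ∣ m) :
    ∃ (sd : SliceData (rbE (EW W) p f)) (G : Gal sd p W (chiO p f) m),
      (¬ (p : ℤ) ∣ W.Δ → FlatM p O G.pt.r) ∧ ((p : ℤ) ∣ W.Δ → Nonempty (GalP G)) :=
  RTX.exists_gal_rd hp2 hpO hss hirr f hf (rd_EW_all hss hp2 hirr hpO f i) m hm hpm hΔm

end Fermat.Agent.SL1
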