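import Fermat.Agent.Flat.FlatB

/-!
# Flat dihedral representations of the decomposition group at `p`

A two dimensional flat representation over `𝔽_p` with cyclotomic determinant cannot have trace zero
on the elements of the inertia group outside a subgroup of index two, if `p ≥ 5`.
-/

set_option autoImplicit false
set_option linter.unusedSectionVars false
set_option linter.style.haveILetI false

noncomputable section

namespace Fermat.Agent.SL1

open Fermat.Agent.Flat Matrix

variable {p : ℕ} [hp : Fact p.Prime] {Ω : Type} [NormedField Ω] [hU : IsUltrametricDist Ω]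

section om

variable (p Ω) (I : Type) [Group I] [MulSemiringAction I Ω] [S : Setting p Ω I]

/-- the square of the cyclotomic character is not trivial on inertia, if `p ≥ 5`. -/
theorem exists_omega_sq (hp5 : 5 ≤ p) : ∃ σ : I, omega p Ω I σ ^ 2 ≠ 1 := by
  haveI := neZero_p p Ω I
  by_contra hcon
  push Not at hcon
  set x : Ω := (zp p Ω I 1 - 1) * (zp p Ω I (-1) - 1) with hx
  have hfix : ∀ σ : I, σ • x = x := by
    intro σ
    have h1 : omega p Ω I σ = 1 ∨ omega p Ω I σ = -1 := mul_self_eq_one_iff.mp (by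
      rw [← sq]; exact hcon σ)
    rw [hx, smul_mul', smul_sub, smul_sub, smul_one, smul_zp, smul_zp]
    rcases h1 with h | h
    · rw [h, one_mul, one_mul]
    · rw [h, neg_mul_neg, one_mul, neg_mul, one_mul, mul_comm]
  have hn : ‖x‖ = rho p ^ 2 := by
    rw [hx, norm_mul, norm_zp_sub_one p Ω I one_ne_zero,
      norm_zp_sub_one p Ω I (neg_ne_zero.mpr one_ne_zero), sq]
  have h0 : x ≠ 0 := by
    rw [← norm_ne_zero_iff, hn]
    exact pow_ne_zero _ (rho_pos p Ω I).ne'
  obtain ⟨n, h1⟩ := S.norm_fixed _ h0 hfix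
  rw [hn] at h1
  have hpp := one_lt_p p Ω I
  have h2 := rho_pow p Ω I
  have h3 : (p : ℝ) ^ (n * ((p - 1 : ℕ) : ℤ)) = (p : ℝ) ^ (-2 : ℤ) := by
    rw [_root_.zpow_mul, ← h1, zpow_natCast, ← pow_mul, mul_comm, pow_mul, h2, ← zpow_natCast,
      ← _root_.zpow_neg_one, ← _root_.zpow_mul]
    norm_num
  have h4 := zpow_right_injective₀ (p_pos p Ω I) hpp.ne' h3
  have h5 : ((p - 1 : ℕ) : ℤ) ∣ -2 := ⟨n, by rw [mul_comm]; exact h4.symm⟩
  rw [dvd_neg, Int.natCast_dvd] at h5
  have h6 := Nat.le_of_dvd (by decide) h5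
  simp at h6
  omega

end om

section rep

variable {Γ : Type} [Group Γ] [MulSemiringAction Γ Ω] {I : Subgroup Γ} [S : Setting p Ω I]
  {r : Γ →* Matrix (Fin 2) (Fin 2) (ZMod p)}

theorem trace_of_conn_ne_top (D : Ord p Ω I (fun s => vAct r s.1)) (hne : D.conn ≠ ⊤) (σ : I) :
    (r σ.1).trace = 1 + (r σ.1).det := by
  by_contra h
  have hdet : (r σ.1 - 1).det ≠ 0 := by
    intro h0
    apply h
    rw [det_fin_two] at h0
    simp only [Matrix.sub_apply, Matrix.one_apply_eq, Matrix.one_apply_ne,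
      ne_eq, zero_ne_one, not_false_eq_true, one_ne_zero, sub_zero] at h0
    rw [trace_fin_two, det_fin_two]
    linear_combination -h0
  apply hne
  rw [eq_top_iff]
  intro y _
  have h1 := D.smul_sub_mem_conn σ ((r σ.1 - 1)⁻¹ *ᵥ y)
  have h2 : vAct r σ.1 ((r σ.1 - 1)⁻¹ *ᵥ y) - (r σ.1 - 1)⁻¹ *ᵥ y = y := by
    have h3 : (r σ.1 - 1) *ᵥ ((r σ.1 - 1)⁻¹ *ᵥ y) = y := by
      rw [mulVec_mulVec, mul_nonsing_inv _ (isUnit_iff_ne_zero.mpr hdet), one_mulVec]
    rw [sub_mulVec, one_mulVec] at h3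
    exact h3
  rw [h2] at h1
  exact h1

theorem card_vec : Nat.card (Fin 2 → ZMod p) = p ^ 2 := by
  rw [Nat.card_fun, Nat.card_fin, Nat.card_zmod]

theorem trace_of_line (hdet : ∀ γ, (r γ).det = eps p Ω I γ)
    (D : Ord p Ω I (fun s => vAct r s.1)) (htop : ∀ x, D.rad x < 1)
    (N : AddSubgroup (Fin 2 → ZMod p)) (hN : ∀ σ ∈ I, ∀ x ∈ N, r σ *ᵥ x ∈ N) (hbot : N ≠ ⊥)
    (hne : N ≠ ⊤) (σ : I) : (r σ.1).trace = 1 + (r σ.1).det := by
  have hcard : Nat.card N = p := by
    have h1 : Nat.card N ∣ p ^ 2 := by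
      rw [← card_vec (p := p)]
      exact AddSubgroup.card_addSubgroup_dvd_card N
    obtain ⟨i, hi, h2⟩ := (Nat.dvd_prime_pow hp.out).mp h1
    interval_cases i
    · exfalso
      apply hbot
      rw [pow_zero] at h2
      exact AddSubgroup.eq_bot_of_card_eq N h2
    · rw [h2, pow_one]
    · exfalso
      apply hne
      apply AddSubgroup.eq_top_of_card_eq
      rw [h2, card_vec]
  have hact : IsAct (fun s : I => vAct r s.1) := (isAct_vAct r).rI I
  let ρN : I → N → N := fun σ x => ⟨r σ.1 *ᵥ x.1, hN σ.1 σ.2 x.1 x.2⟩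
  have he : ∀ σ x, N.subtype (ρN σ x) = vAct r σ.1 (N.subtype x) := fun _ _ => rfl
  have hactN : IsAct ρN := hact.of_injective N.subtype N.subtype_injective he
  let DN : Ord p Ω I ρN := D.restrict N.subtype N.subtype_injective he
  obtain ⟨x, hx, hx0⟩ : ∃ x ∈ N, x ≠ 0 := by
    by_contra hcon
    push Not at hcon
    apply hbot
    rw [eq_bot_iff]
    intro x hx
    exact hcon x hx
  rcases rank_one_char hactN hcard DN with h | h
  · exfalso
    apply hx0
    apply D.eq_zero_of_fixed hact (n := 1) (fun z => nsmul_p_vec1 z) (htop x)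
    intro τ
    exact congrArg Subtype.val (h τ ⟨x, hx⟩)
  · have h1 : r σ.1 *ᵥ x = (omega p Ω I σ) • x := by
      have h2 := congrArg Subtype.val (h σ ⟨x, hx⟩)
      refine h2.trans ?_
      show (omega p Ω I σ).val • x = _
      funext i
      rw [Pi.smul_apply, Pi.smul_apply, nsmul_eq_mul, ZMod.natCast_zmod_val, smul_eq_mul]
    have h2 : (r σ.1 - (omega p Ω I σ) • 1).det = 0 := by
      apply Matrix.exists_mulVec_eq_zero_iff.mp
      refine ⟨x, hx0, ?_⟩
      rw [sub_mulVec, smul_mulVec, one_mulVec, h1, sub_self]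
    have h3 := hdet σ.1
    rw [eps_eq_omega] at h3
    have h4 := omega_ne_zero (p := p) (Ω := Ω) σ
    rw [det_fin_two] at h2
    simp only [Matrix.sub_apply, Matrix.smul_apply, Matrix.one_apply_eq, Matrix.one_apply_ne,
      ne_eq, zero_ne_one, not_false_eq_true, one_ne_zero, smul_eq_mul, mul_one, mul_zero,
      sub_zero] at h2
    apply mul_left_cancel₀ h4
    rw [h3, trace_fin_two]
    rw [det_fin_two] at h3
    linear_combination -h2 + h3

/-- **Flat dihedral representations** -/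
theorem loc_contra (hp5 : 5 ≤ p) (hdet : ∀ γ, (r γ).det = eps p Ω I γ)
    (D : Ord p Ω I (fun s => vAct r s.1)) {H : Subgroup Γ}
    (htr : ∀ g ∈ I, g ∉ H → (r g).trace = 0) (hI : ∃ σ ∈ I, σ ∉ H) : False := by
  obtain ⟨σ₀, hσ₀, hσ₀H⟩ := hI
  have hmul : ∀ τ ∈ H, σ₀ * τ ∉ H := fun τ hτ h => hσ₀H ((H.mul_mem_cancel_right hτ).mp h)
  have key : ¬ ∀ σ : I, (r σ.1).trace = 1 + (r σ.1).det := by
    intro htr1
    obtain ⟨τ, hτ⟩ := exists_omega_sq p Ω I hp5
    have h1 : ∀ σ : I, σ.1 ∉ H → omega p Ω I σ = -1 := by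
      intro σ hσ
      have h2 := htr1 σ
      rw [htr _ σ.2 hσ, hdet, eps_eq_omega] at h2
      linear_combination -h2
    apply hτ
    by_cases hτH : τ.1 ∈ H
    · have h3 := h1 (⟨σ₀, hσ₀⟩ * τ) (hmul _ hτH)
      rw [omega_mul, h1 ⟨σ₀, hσ₀⟩ hσ₀H] at h3
      have h4 : omega p Ω I τ = 1 := by linear_combination -h3
      rw [h4, one_pow]
    · rw [h1 τ hτH]; ring
  by_cases htop : D.conn = ⊤
  · have htop' : ∀ x, D.rad x < 1 := by
      intro x
      have : x ∈ D.conn := by rw [htop]; trivial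
      exact this
    by_cases hirr : ∀ N : AddSubgroup (Fin 2 → ZMod p), (∀ σ ∈ I, ∀ x ∈ N, r σ *ᵥ x ∈ N) →
        N = ⊥ ∨ N = ⊤
    · have hS := ss_of_flat (Ω := Ω) hdet hirr
      obtain ⟨lam, hinj, hlam⟩ := hS.exists_lam D
      haveI := neZero_p p Ω I
      have h1 : ∀ σ : I, σ.1 ∉ H → psi p Ω σ ^ (p - 1) = -1 := by
        intro σ hσ
        have h2 := htr _ σ.2 hσ
        have h3 := hdet σ.1
        rw [eps_eq_omega] at h3
        have hsq : r σ.1 * r σ.1 = (-omega p Ω I σ) • 1 := by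
          rw [trace_fin_two] at h2
          rw [det_fin_two] at h3
          ext i j
          fin_cases i <;> fin_cases j <;>
            simp only [Matrix.mul_apply, Fin.sum_univ_two, Matrix.smul_apply, smul_eq_mul,
              Fin.zero_eta, Fin.mk_one, Matrix.one_apply_eq, Matrix.one_apply_ne, ne_eq,
              zero_ne_one, not_false_eq_true, one_ne_zero, mul_one, mul_zero]
          · linear_combination r σ.1 0 0 * h2 - h3
          · linear_combination r σ.1 0 1 * h2
          · linear_combination r σ.1 1 0 * h2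
          · linear_combination r σ.1 1 1 * h2 - h3
        set x₀ : Fin 2 → ZMod p := ![1, 0] with hx₀
        have hx₀0 : x₀ ≠ 0 := fun h => one_ne_zero (congrFun h 0)
        have hl0 : lam x₀ ≠ 0 := fun h => hx₀0 (hinj (by rw [h, map_zero]))
        have h4 : lam (rI I (vAct r) σ (rI I (vAct r) σ x₀)) = psi p Ω σ * (psi p Ω σ * lam x₀) := by
          rw [hlam, hlam]
        have h5 : rI I (vAct r) σ (rI I (vAct r) σ x₀) = -((omega p Ω I σ).val • x₀) := by
          show r σ.1 *ᵥ (r σ.1 *ᵥ x₀) = _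
          rw [mulVec_mulVec, hsq, smul_mulVec, one_mulVec]
          funext i
          rw [Pi.smul_apply, Pi.neg_apply, Pi.smul_apply, nsmul_eq_mul, ZMod.natCast_zmod_val,
            smul_eq_mul, neg_mul]
        rw [h5, map_neg, map_nsmul, nsmul_eq_mul, hS.omega_eq hinj hlam] at h4
        have hψ := psi_ne_zero (p := p) (Ω := Ω) σ
        have h6 : psi p Ω σ ^ (p + 1) = psi p Ω σ ^ (p - 1) * psi p Ω σ ^ 2 := by
          rw [← pow_add]
          congr 1
          omega
        rw [h6] at h4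
        have h7 : psi p Ω σ ^ 2 * lam x₀ ≠ 0 := mul_ne_zero (pow_ne_zero _ hψ) hl0
        apply mul_right_cancel₀ h7
        linear_combination -h4
      have h2 : ∀ σ : I, psi p Ω σ ^ (2 * (p - 1)) = 1 := by
        intro τ
        by_cases hτH : τ.1 ∈ H
        · have h3 := h1 (⟨σ₀, hσ₀⟩ * τ) (hmul _ hτH)
          rw [psi_mul, mul_pow, h1 ⟨σ₀, hσ₀⟩ hσ₀H] at h3
          have h4 : psi p Ω τ ^ (p - 1) = 1 := by linear_combination -h3
          rw [mul_comm, pow_mul, h4, one_pow]
        · rw [mul_comm, pow_mul, h1 τ hτH]; ring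
      have h3 := dvd_of_psi_zpow h2
      have h4 := Nat.le_of_dvd (by omega) h3
      rw [sq_sub_one_eq p Ω I] at h4
      have h5 : (p - 1) * (p + 1) ≤ (p - 1) * 2 := by rw [mul_comm (p - 1) 2]; exact h4
      have h6 := Nat.le_of_mul_le_mul_left h5 (by omega)
      omega
    · push Not at hirr
      obtain ⟨N, hN, hbot, hneT⟩ := hirr
      exact key fun σ => trace_of_line hdet D htop' N hN hbot hneT σ
  · exact key fun σ => trace_of_conn_ne_top D htop σ

end rep

end Fermat.Agent.SL1
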